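import Fermat.Agent.Curve.Lift.Elliptic

/-!
# An elliptic element of order three on the Hauptmodul of level two

`U = S T` sends `t` to `1 / (1 - t)`. In characteristic three its only residual fixed point is `-1`,
which is the residual value at the fixed point of `U`, so `j` vanishes there.
-/

set_option autoImplicit false

open UpperHalfPlane CongruenceSubgroup AlgebraicCurve IntermediateField
open scoped MatrixGroups
open ModularCurve (qExpand jqModC modularFunctionFieldFullC)

noncomputable section

namespace FermatAgent.BAD.AtP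

open FermatAgent.ES FermatAgent.Curve FermatAgent.Curve.Red

variable {M N m : ℕ} [NeZero M] [NeZero N] {k : Type*} [Field k] (D : RedDatum M k)

omit [NeZero N] in
/-- The action of `S T` on the Hauptmodul of level two. -/
theorem haupt_S_T_smul (haux : AuxLevel M 2) (σ : ℍ) :
    haupt haux.dvd ((ModularGroup.S * ModularGroup.T : SL(2, ℤ)) • σ) *
      (1 - haupt haux.dvd σ) = 1 := by
  set U : SL(2, ℤ) := ModularGroup.S * ModularGroup.T
  have e0 : vmul 2 (baseVec 2 0) U = baseVec 2 2 := by decide
  have e1 : vmul 2 (baseVec 2 1) U = baseVec 2 0 := by decide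
  have e2 : vmul 2 (baseVec 2 2) U = baseVec 2 1 := by decide
  have h1 := congrFun (act_ratio U (embVec haux.dvd (baseVec 2 0)) (embVec haux.dvd (baseVec 2 1))
    (embVec haux.dvd (baseVec 2 0)) (embVec haux.dvd (baseVec 2 2))) σ
  simp only [← embVec_vmul, e0, e1, e2] at h1
  rw [act_apply] at h1
  have h2 := congrFun (haupt_sub_one haux) σ
  simp only [haupt, polFun, polNum, polDen, Pi.sub_apply, Pi.one_apply] at h2 ⊢
  rw [h1, ← neg_sub, h2]
  have n02 := (adm_den haux (one_le haux)).dif_ne_zero σ
  have n21 := (adm_den haux (Nat.zero_le _)).dif_ne_zero σ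
  simp only [polDen] at n02 n21
  simp only [ratio, dif_swap M (embVec haux.dvd (baseVec 2 0)) (embVec haux.dvd (baseVec 2 2)),
    Pi.neg_apply]
  field_simp

omit [NeZero N] in
/-- **In characteristic three residual ramification divisible by three forces the residual value
`0` of `j`.** -/
theorem pi_eq_zero_of_three_dvd_two [IsAlgClosed k] (h3k : (3 : k) = 0) (haux : AuxLevel M 2)
    (hint : D.IntClosed) {τ : ℍ} (hτ : jFun τ ∈ D.R) (hg : GoodPoint haux D.R τ) {E : ℕ}
    (hE : (D.resDisc haux hg (D.jB - D.constB ⟨_, hτ⟩)).order = (E : ℕ∞)) (h3 : 3 ∣ E) :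
    D.π ⟨_, hτ⟩ = 0 := by
  have key : ∀ v : k, v * (1 - v) = 1 → v = -1 := fun v hv => by
    have h0 : (v + 1) ^ 2 = 0 := by linear_combination v * h3k - hv
    exact eq_neg_of_add_eq_zero_left (eq_zero_of_pow_eq_zero h0)
  refine D.pi_eq_zero_of_order_three haux hint hτ hg hE h3
    (ModularGroup.S * ModularGroup.T) (fun u v => v * (1 - u) = 1) (fun σ hσ hσ' => ?_) ?_
    (fun u v hu hv => (key u hu).trans (key v hv).symm) S_T_smul_rhoPt jFun_rhoPt
  · simp only [RedDatum.tVal]
    rw [← map_one D.π, ← map_sub, ← map_mul]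
    exact congrArg D.π (Subtype.ext (haupt_S_T_smul haux σ))
  · intro u v w x ha hb hc
    have hb' : w * u = u - 1 := by linear_combination -(1 - u) * hb - w * ha
    linear_combination u * hc + x * hb'

end FermatAgent.BAD.AtP
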