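import Fermat.Agent.BAD.AtP.Curve.EigenRed
import Fermat.Agent.BAD.AtP.Res.Elliptic
import Fermat.Agent.BAD.Lift.Divisor

/-!
# Residual divisors with the characteristic allowed in the exponent

The orders in the discs and at the cusps separately, and the divisibility of the residual orders
by the residual characteristic.
-/

set_option autoImplicit false

open UpperHalfPlane hiding I
open CongruenceSubgroup (Gamma Gamma0)
open scoped MatrixGroups ModularForm
open ModularCurve (coeffMap qExpand modularFunctionFieldFullC)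
open AlgebraicCurve (Place)

noncomputable section

namespace FermatAgent.BAD.AtP

open FermatAgent.ES (BSub BRing SerIn HasExp HasLExp lexp lexp_eq hasLExp_lexp act LeadUnit UnitIn
  AuxLevel CPlace IsTwist embC auxW GoodPoint discHom)
open FermatAgent.Curve (HasLoc qw jField)
open FermatAgent.Flat.Kummer (deltaSer)
open FermatAgent.BAD.Lift

attribute [local instance] Mazur.embAlg

local notation "Qb" => AlgebraicClosure ℚ

variable {q : ℕ} [Fact q.Prime] (P : CPlace q) {N : ℕ} [NeZero N] {M m : ℕ} [NeZero M]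
  (haux : AuxLevel M m) (hNM : N ∣ M) (hM : M.Coprime q)
  {r n : ℕ} {F : ℍ → ℂ} {sA : LaurentSeries P.algVal}
  {gb : modularFunctionFieldFullC (IsLocalRing.ResidueField P.algVal) N}

variable (haux2 : AuxLevel M 2)

include haux2 hNM hM in
/-- **Orders of the residual function over finite values of `j`.** -/
theorem dvd_ord_finite_residual (hF : IsTwist (Gamma0 N) ((12 * r : ℕ) : ℤ) 1 F)
    (hsA : coeffMap P.algVal.subtype sA ∈ jField Qb N)
    (hloc : HasLoc (qw 1) (divDisc F r) (toC P sA))
    (hgb : coeffMap (IsLocalRing.residue P.algVal) sA = gb) (hgb0 : gb ≠ 0)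
    (hdisc : ∀ G : BRing M P.ring,
      (G : ℍ → ℂ) = (fun τ => F τ / auxW haux2 τ ^ (6 * r)) →
      ∀ (τ : ℍ) (hg : GoodPoint haux2 P.ring τ) (i : ℕ),
        ((discHom haux2 τ (P.goodRoot hM) hg G).map P.res).order = i → q ∣ i)
    (hq2 : q ≠ 2) (hqN : q ≠ 3 ∨ 2 ∣ N)
    {Q : Place (IsLocalRing.ResidueField P.algVal)
      (modularFunctionFieldFullC (IsLocalRing.ResidueField P.algVal) N)}
    (hQ : 0 ≤ Q.ord (Curve.Red.jFullC (IsLocalRing.ResidueField P.algVal) N)) :
    (q : ℤ) ∣ Q.ord gb := by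
  have hqM : ¬ q ∣ N := fun h => not_dvd_of_coprime hM (h.trans hNM)
  have := isAlgClosed_residueField P.algVal
  have := Curve.Red.isFF_fullC P.algVal_liesOverPrime hqM
  have hd := residual_disc_hyp P haux2 hNM hM hF hsA hloc (n := q) hdisc
  have hf := redHom_divDisc P haux2 hNM hM hF hsA hloc hgb
  have hint := intClosed_placeDat P hM
  have hidx := finrank_residual_le P hNM hM
  have hp := (Fact.out : q.Prime)
  rcases eq_or_ne q 3 with h3 | h3
  · have h2N : 2 ∣ N := hqN.resolve_left fun h => h h3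
    have h3k : (3 : IsLocalRing.ResidueField P.algVal) = 0 := by
      have h := natCast_prime_residue (p := q) P.algVal_liesOverPrime
      subst h3
      exact_mod_cast h
    have h := (placeDat P hM).dvd_four_ord_finite_of hidx haux2 hint hNM
      (fun τ hτ hg E hE hdvd => pi_eq_zero_of_three_dvd_two _ h3k haux2 hint hτ hg hE hdvd)
      Nat.prime_two (by norm_num) h2N hgb0 hf hd hQ
    exact Int.dvd_of_dvd_mul_right_of_gcd_one h (by subst h3; rfl)
  · have h := (placeDat P hM).dvd_twelve_ord_finite haux2 hidx hint hNM hgb0 hf hd hQ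
    refine Int.dvd_of_dvd_mul_right_of_gcd_one h ?_
    show Nat.gcd q 12 = 1
    rw [← Nat.coprime_iff_gcd_eq_one, hp.coprime_iff_not_dvd]
    intro h12
    rcases hp.dvd_mul.mp (show q ∣ 4 * 3 from h12) with h | h
    · exact hq2 ((Nat.prime_dvd_prime_iff_eq hp Nat.prime_two).mp
        (hp.dvd_of_dvd_pow (show q ∣ 2 ^ 2 from h)))
    · exact h3 ((Nat.prime_dvd_prime_iff_eq hp Nat.prime_three).mp h)

include haux hNM hM in
/-- **Orders of the residual function at the cusps.** -/
theorem dvd_ord_cusp_residual (hF : IsTwist (Gamma0 N) ((12 * r : ℕ) : ℤ) 1 F)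
    (hsA : coeffMap P.algVal.subtype sA ∈ jField Qb N)
    (hloc : HasLoc (qw 1) (divDisc F r) (toC P sA))
    (hgb : coeffMap (IsLocalRing.residue P.algVal) sA = gb) (hgb0 : gb ≠ 0) (hqr : q ∣ r)
    (hcusp : ∀ (γ : SL(2, ℤ)) (w : ℕ), γ * ModularGroup.T ^ w * γ⁻¹ ∈ Gamma0 N →
      ∀ d : PowerSeries P.ring,
        HasExp M (F ∣[((12 * r : ℕ) : ℤ)] γ) (d.map P.ring.subtype) →
        ∀ i : ℕ, (d.map P.res).order = i → q * M ∣ w * i)
    {Q : Place (IsLocalRing.ResidueField P.algVal)
      (modularFunctionFieldFullC (IsLocalRing.ResidueField P.algVal) N)}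
    (hQ : Q.ord (Curve.Red.jFullC (IsLocalRing.ResidueField P.algVal) N) < 0) :
    (q : ℤ) ∣ Q.ord gb := by
  have hqM : ¬ q ∣ N := fun h => not_dvd_of_coprime hM (h.trans hNM)
  have := isAlgClosed_residueField P.algVal
  have := Curve.Red.isFF_fullC P.algVal_liesOverPrime hqM
  exact (placeDat P hM).dvd_ord_cusp haux (finrank_residual_le P hNM hM) hNM
    (redHom_divDisc P haux hNM hM hF hsA hloc hgb)
    (residual_cusp_hyp P haux hNM hM hF hsA hloc hgb hgb0 hqr hcusp) hQ

end FermatAgent.BAD.AtP
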